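import Fermat.Agent.S59.LoSqC.H876.Plug
import Fermat.Agent.S59.LoSqC.H117.NewUnits
import Fermat.Agent.S59.LoSqC.H125.Ctx
import Fermat.Agent.S59.LoSqC.H305.SlopeLeaf
import Fermat.Agent.S59.LoSqC.H433.WallSplit
import Fermat.Agent.S59.H885.LoSqFix
import Fermat.Agent.S59.H826.SqFree35Plug
import Fermat.Agent.Ribet.H584.Places
import Fermat.Agent.Ribet.H404.R3S

/-!
# S59 moonshot, cell (C) LO-SQ: the LIVE FRONTIER of the cell (integration box helper608)

OFF-MAIN.  One theorem, always green on the integration tree `origin/helper608`:

    sqFree35_of_realize608 :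
      (row inputs BLR-W, R3'-W and the easy half (5, 2), kept as hypotheses: statement tops) →
      <the frozen leaves of `LoSqC/Spec.lean` (helper885 @bf319b02f) which are still OPEN> →
      H826.SqFree35Statement                       -- the (C) target accepted by helper239

Everything delivered VERBATIM against the frozen Spec is plugged:

| frozen Prop          | plugged theorem                      | spare                      |
|----------------------|--------------------------------------|----------------------------|
| `NewUnitsStatement`  | `H117.h117_newUnits`                 | `H987.newUnits`            |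
| `LeafCtx`            | `H125.leafCtx125`                    |                            |
| `SlopeJStatement`    | `H305.slopeJ305`                     |                            |
| `DescWStatement`     | `H876.descW`                         |                            |
| TOP-CORE             | `H876.coreSqNeat_of_newOld876`       |                            |
| (UNR)                | `H876.unr876`                        |                            |
| W-form glue          | `Skel.loSqNeat_of_coreSqNeat` (885)  |                            |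
| places, FIX-W, NE-W  | `H584.places`, `H885.fixW/nonEisW`   |                            |
| R3S                  | `H404.eigenformOfOccursAway`         |                            |
| `(3, 2)`             | `H826.loSq32` (via `SqFree35Plug`)   |                            |

OPEN after this file: `LeafRealize` (the mountain) only; sharper: `H433.LeafRealizeHard`
(`5 ≤ q`, `p ∣ q² - 1`; helper433 `levelWall_of_leaves_hard`), see `sqFree35_of_realizeHard608`.

Glue written here: `loSqNeat826_of_loSqNeat608 : LoSqC.LoSqNeatStatement → H826.LoSqNeatStatement`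
(arithmetic: `47 % 12 = 11`, `r ≠ q`, `r ∣ M / q`, `4 ∣ M / q`, `¬ q ^ 3 ∣ M`).
-/

set_option autoImplicit false
set_option linter.style.haveILetI false
set_option linter.unusedSectionVars false
set_option synthInstance.maxHeartbeats 400000
set_option maxHeartbeats 1600000

noncomputable section

namespace Fermat.Agent.S59.LoSqC.H608

open ModularCurve AlgebraicCurve
open Fermat.Agent.S36 Fermat.Agent.S36.Eng
open Fermat.Agent.Ribet Fermat.Agent.Ribet.Spec Fermat.Agent.Ribet.H944.Wall
open Fermat.Agent.S59.LoSqC

/-! ## Arithmetic -/

theorem coprime_four608 {q : ℕ} (hq : q.Prime) (hq2 : q ≠ 2) : Nat.Coprime 4 q := by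
  have h2 : Nat.Coprime 2 q := (Nat.coprime_primes Nat.prime_two hq).2 (Ne.symm hq2)
  have h4 : Nat.Coprime (2 ^ 2) q := Nat.Coprime.pow_left 2 h2
  simpa using h4

theorem dvd_of_dvd_mul_prime608 {r M q : ℕ} (hr : r.Prime) (hq : q.Prime) (hrq : r ≠ q)
    (h : r ∣ M * q) : r ∣ M := by
  rcases (Nat.Prime.dvd_mul hr).1 h with h | h
  · exact h
  · exact absurd ((Nat.prime_dvd_prime_iff_eq hr hq).1 h) hrq

/-! ## The consumer shape of helper826 -/

/-- `LoSqC.LoSqNeatStatement` (helper885) gives `H826.LoSqNeatStatement` (the input of
`H826.sqFree35_of_neat`). -/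
theorem loSqNeat826_of_loSqNeat608 (h : LoSqNeatStatement) :
    Fermat.Agent.S59.H826.LoSqNeatStatement := by
  intro p _ hp35 W hΔ hW hirr M q r hM hpM hM3 hq hqp hq2 hqM h4 h8 hr hr60 hrM hr2 hrgood hres
  have hqdvd : q ∣ M := dvd_trans (dvd_pow_self q two_ne_zero) hqM
  have hMq : M / q * q = M := Nat.div_mul_cancel hqdvd
  have hrq : r ≠ q := fun e => hr2 (by rw [e]; exact hqM)
  have hr12 : r % 12 = 11 := by omega
  refine h p hp35 W hΔ hW hirr M q hM hq hqp hq2 hqM (hM3 q hq hqp) ⟨⟨r, hr, hr12, hrq, ?_⟩, ?_⟩
    hres
  · exact dvd_of_dvd_mul_prime608 hr hq hrq (by rw [hMq]; exact hrM)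
  · exact (coprime_four608 hq hq2).dvd_of_dvd_mul_right (by rw [hMq]; exact h4)

/-! ## The frontier -/

/-- **Cell (C), J-form**: CORE-SQ at neat levels from the level wall (E-form); W-SLOPE, W-DESC,
(UNR), TOP-CORE plugged. -/
theorem coreSqNeat_of_levelWall608 (hLW : LevelWallStatement) : CoreSqNeatStatement :=
  Fermat.Agent.S59.LoSqC.H876.coreSqNeat_of_newOld876
    (Fermat.Agent.S59.LoSqC.H876.newOld_of_levelWall_slope876 hLW
      Fermat.Agent.S59.LoSqC.H305.slopeJ305)

/-- **Cell (C), W-form at neat levels** from CORE-SQ at neat levels.  Row inputs kept as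
hypotheses (their closures contain statement tops; plugged in `FrontierAll.lean`): BLR-W,
R3'-W. -/
theorem loSqNeat_of_coreSqNeat608 (hE : EmbedWStatement) (hR3' : AlmostAllToWitnessWStatement)
    (hCore : CoreSqNeatStatement) : LoSqNeatStatement :=
  loSqNeat_of_coreSqNeat hE Fermat.Agent.Ribet.H584.places Fermat.Agent.S59.H885.fixW
    Fermat.Agent.S59.H885.nonEisW Fermat.Agent.Ribet.H404.eigenformOfOccursAway hR3' hCore

/-- **Cell (C), target from CORE-SQ at neat levels**; `(3, 2)` is plugged (`H826.loSq32`). -/
theorem sqFree35_of_coreSqNeat608 (hE : EmbedWStatement) (hR3' : AlmostAllToWitnessWStatement)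
    (h52 : Fermat.Agent.S59.H826.LoSq52Statement) (hCore : CoreSqNeatStatement) :
    Fermat.Agent.S59.H826.SqFree35Statement :=
  Fermat.Agent.S59.H826.sqFree35_of_neat_plugged
    (loSqNeat826_of_loSqNeat608 (loSqNeat_of_coreSqNeat608 hE hR3' hCore)) h52

/-- **Cell (C), target from the level wall** (E-form). -/
theorem sqFree35_of_levelWall608 (hE : EmbedWStatement) (hR3' : AlmostAllToWitnessWStatement)
    (h52 : Fermat.Agent.S59.H826.LoSq52Statement) (hLW : LevelWallStatement) :
    Fermat.Agent.S59.H826.SqFree35Statement :=
  sqFree35_of_coreSqNeat608 hE hR3' h52 (coreSqNeat_of_levelWall608 hLW)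

/-- **Cell (C), J-form frontier**: CORE-SQ at neat levels from the ONE open leaf. -/
theorem coreSqNeat_of_realize608 (hRe : LeafRealize) : CoreSqNeatStatement :=
  coreSqNeat_of_levelWall608
    (levelWall_of_leaves Fermat.Agent.S59.LoSqC.H117.h117_newUnits
      Fermat.Agent.S59.LoSqC.H125.leafCtx125 hRe)

/-- **Cell (C), W-form frontier at neat levels** (`LoSqC.LoSqNeatStatement`). -/
theorem loSqNeat_of_realize608 (hE : EmbedWStatement) (hR3' : AlmostAllToWitnessWStatement)
    (hRe : LeafRealize) : LoSqNeatStatement :=
  loSqNeat_of_coreSqNeat608 hE hR3' (coreSqNeat_of_realize608 hRe)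

/-- **Cell (C), THE FRONTIER**: the target `H826.SqFree35Statement` of the cell from the open
leaf. -/
theorem sqFree35_of_realize608 (hE : EmbedWStatement) (hR3' : AlmostAllToWitnessWStatement)
    (h52 : Fermat.Agent.S59.H826.LoSq52Statement) (hRe : LeafRealize) :
    Fermat.Agent.S59.H826.SqFree35Statement :=
  sqFree35_of_coreSqNeat608 hE hR3' h52 (coreSqNeat_of_realize608 hRe)

/-- **Cell (C), THE FRONTIER, sharp form**: only the HARD case of REALIZE (`5 ≤ q`,
`p ∣ q² - 1`; helper433) is needed. -/
theorem sqFree35_of_realizeHard608 (hE : EmbedWStatement) (hR3' : AlmostAllToWitnessWStatement)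
    (h52 : Fermat.Agent.S59.H826.LoSq52Statement)
    (hRe : Fermat.Agent.S59.LoSqC.H433.LeafRealizeHard) :
    Fermat.Agent.S59.H826.SqFree35Statement :=
  sqFree35_of_levelWall608 hE hR3' h52
    (Fermat.Agent.S59.LoSqC.H433.levelWall_of_leaves_hard
      Fermat.Agent.S59.LoSqC.H117.h117_newUnits Fermat.Agent.S59.LoSqC.H125.leafCtx125 hRe)

end Fermat.Agent.S59.LoSqC.H608

end
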