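import Fermat.Agent.S59.LoSqC.H608.Frontier
import Fermat.Agent.S59.H116.LoSqEasy
import Fermat.Agent.Ribet.H823.EmbedWFinal
import Fermat.Agent.Ribet.H764.TransportS29
import Fermat.Agent.S29.Top

/-!
# S59 moonshot, cell (C) LO-SQ: the frontier with the row inputs plugged (helper608)

OFF-MAIN.  `sqFree35_of_realize_all608 : LoSqC.LeafRealize → H826.SqFree35Statement`.

Plugged on top of `Frontier.lean`: BLR-W `Ribet.H823.embedW`, R3'-W
`Ribet.H764.almostAllToWitnessW_of_S29` on the PLAIN top `S29.result_top` (as helper550's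
`PlugC.lean`: no statement module `S29` / `S42` in the closure), the easy half `(5, 2)` =
`H116.loSq52_116` (helper116, off-main; the trunk `Arch/CTop.lean` uses the same).
-/

set_option autoImplicit false

namespace Fermat.Agent.S59.LoSqC.H608

/-- R3'-W on the plain top of S29. -/
theorem almostAllToWitnessW608 : Fermat.Agent.Ribet.Spec.AlmostAllToWitnessWStatement :=
  Fermat.Agent.Ribet.H764.almostAllToWitnessW_of_S29 Fermat.Agent.S29.result_top

/-- **The W-form of the wall (`LoSqC.LoSqNeatStatement`) from CORE-SQ at neat levels.** -/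
theorem loSqNeat_of_coreSqNeat_all608 (hCore : Fermat.Agent.S59.LoSqC.CoreSqNeatStatement) :
    Fermat.Agent.S59.LoSqC.LoSqNeatStatement :=
  loSqNeat_of_coreSqNeat608 Fermat.Agent.Ribet.H823.embedW almostAllToWitnessW608 hCore

/-- **Cell (C) from CORE-SQ at neat levels** (J-form). -/
theorem sqFree35_of_coreSqNeat_all608 (hCore : Fermat.Agent.S59.LoSqC.CoreSqNeatStatement) :
    Fermat.Agent.S59.H826.SqFree35Statement :=
  sqFree35_of_coreSqNeat608 Fermat.Agent.Ribet.H823.embedW almostAllToWitnessW608
    Fermat.Agent.S59.H116.loSq52_116 hCore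

/-- **Cell (C) from the level wall** (E-form). -/
theorem sqFree35_of_levelWall_all608 (hLW : Fermat.Agent.S59.LoSqC.LevelWallStatement) :
    Fermat.Agent.S59.H826.SqFree35Statement :=
  sqFree35_of_levelWall608 Fermat.Agent.Ribet.H823.embedW almostAllToWitnessW608
    Fermat.Agent.S59.H116.loSq52_116 hLW

/-- **Cell (C) = `LeafRealize`.** -/
theorem sqFree35_of_realize_all608 (hRe : Fermat.Agent.S59.LoSqC.LeafRealize) :
    Fermat.Agent.S59.H826.SqFree35Statement :=
  sqFree35_of_realize608 Fermat.Agent.Ribet.H823.embedW almostAllToWitnessW608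
    Fermat.Agent.S59.H116.loSq52_116 hRe

/-- **Cell (C) = `H433.LeafRealizeHard`** (`5 ≤ q`, `p ∣ q² - 1`). -/
theorem sqFree35_of_realizeHard_all608 (hRe : Fermat.Agent.S59.LoSqC.H433.LeafRealizeHard) :
    Fermat.Agent.S59.H826.SqFree35Statement :=
  sqFree35_of_realizeHard608 Fermat.Agent.Ribet.H823.embedW almostAllToWitnessW608
    Fermat.Agent.S59.H116.loSq52_116 hRe

end Fermat.Agent.S59.LoSqC.H608
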